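import Fermat.Agent.S36.H919.SheetsProp
import Fermat.Agent.S36.H193.WallPow

/-!
# S36 engine, ALG3 gap lemma G2 = SHEETS (helper919): `V₁, V₂, V₃` are exactly the sheets

Setting of `Eng.Alg3Statement`: `R` a henselian DVR with algebraically closed residue field of
characteristic `q`, uniformiser `w`, `E = Frac R` of characteristic `0`, `F`, `F'` fields over
`E`, `α, β : F' → F`.  The hypotheses are FIELDS of `Eng.TripleCtx`, passed one by one
(`hw_i` = first half of `unif₁`, `unif₃`, and `ram₂`; `hx_i` = first half of `x_unit_i`;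
`hα`, `hβ` = `comap_α₁ ▸ comap_α₂`, `comap_β₂ ▸ comap_β₃`; `hint_α`, `hint_β` = `int_α`, `int_β`
at `b = x`).

* **`h919_sheets`** : `V₁`, `V₂`, `V₃` are sheets (`A2.H12.IsSheet w x`), and every sheet is one
  of them.
* `h919_transcendental`, `h919_finiteDimensional` : the coordinate hypotheses of
  `S36.H193.exists_pow_eq_of_base` from `TripleCtx.hx`, `TripleCtx.hfin`.
* `h919_unif_of_unifAt`, `h919_disc_of_dvr` : the hypotheses `hunif`, `hdisc` of
  `S36.H193.exists_pow_eq_of_base` for `V₀ = V₁`.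

Proof of `h919_sheets`: `R ⊆ V_i` because units of `R` are infinitely divisible
(`SheetsBase.lean`); every sheet is some `V_i` by `Qep3` (`Sheets.lean`); there is a sheet
(`H193.sheets_nonempty`); being a sheet propagates between `V₁` and `V₂` (same restriction along
`α`) and between `V₂` and `V₃` (same restriction along `β`) (`SheetsProp.lean`).
-/

set_option autoImplicit false
set_option linter.style.haveILetI false
set_option linter.unusedSectionVars false

namespace Fermat.Agent.S36.H919

open Polynomial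
open Fermat.Agent.A2.H12 (IsSheet)
open Fermat.Agent.S18.H138
open Fermat.Agent.S36.H193

universe u

section Top

variable {R : Type u} [CommRing R] [IsDomain R] [IsDiscreteValuationRing R]
  [HenselianLocalRing R] [IsAlgClosed (IsLocalRing.ResidueField R)]
variable (E : Type u) [Field E] [CharZero E] [Algebra R E] [IsFractionRing R E]
variable {F : Type u} [Field F] [Algebra E F] [Algebra R F] [IsScalarTower R E F]
variable {F' : Type u} [Field F'] [Algebra E F'] [Algebra R F'] [IsScalarTower R E F']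

include E in
/-- `x` transcendental over `E = Frac R` is transcendental over `R`. -/
theorem h919_transcendental {x : F} (hx : Transcendental E x) : Transcendental R x :=
  hx.restrictScalars (IsFractionRing.injective R E)

include E in
/-- `F` finite over `E(x)` is finite over `baseField R x`. -/
theorem h919_finiteDimensional {x : F}
    (hfin : FiniteDimensional (IntermediateField.adjoin E ({x} : Set F)) F) :
    FiniteDimensional (baseField R x) F :=
  haveI := hfin
  Fermat.Agent.A2.H313.finiteDimensional_baseField_of_adjoin E x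

include E in
theorem h919_injective : Function.Injective (algebraMap R F) := by
  rw [IsScalarTower.algebraMap_eq R E F]
  exact (algebraMap E F).injective.comp (IsFractionRing.injective R E)

include E in
/-- **G2 = SHEETS.**  In a three-component context the valuation subrings `V₁`, `V₂`, `V₃` are
sheets of `F` over the Gauss valuation of `R[x]`, and there is no other sheet. -/
theorem h919_sheets (w : R) (hw : Irreducible w) {q : ℕ} (hq : q.Prime)
    (hqR : (q : R) ∈ IsLocalRing.maximalIdeal R)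
    (α β : F' →ₐ[E] F) {x : F} {x' : F'}
    (hx : Transcendental E x)
    (hfin : FiniteDimensional (IntermediateField.adjoin E ({x} : Set F)) F)
    (V₁ V₂ V₃ : ValuationSubring F)
    (dvr₁ : IsDiscreteValuationRing V₁) (dvr₂ : IsDiscreteValuationRing V₂)
    (dvr₃ : IsDiscreteValuationRing V₃)
    (hw₁ : algebraMap R F w ∈ V₁.nonunits) (hw₂ : algebraMap R F w ∈ V₂.nonunits)
    (hw₃ : algebraMap R F w ∈ V₃.nonunits)
    (hx₁ : x ∈ V₁) (hx₂ : x ∈ V₂) (hx₃ : x ∈ V₃)
    (hqep : ∀ b : chart R ({x} : Set F), (b : F) * (algebraMap R F w)⁻¹ ∈ V₁ →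
      (b : F) * (algebraMap R F w)⁻¹ ∈ V₂ → (b : F) * (algebraMap R F w)⁻¹ ∈ V₃ →
      ∃ c : chart R ({x} : Set F), b = algebraMap R (chart R ({x} : Set F)) w * c)
    (hα : V₁.comap (α : F' →+* F) = V₂.comap (α : F' →+* F))
    (hβ : V₂.comap (β : F' →+* F) = V₃.comap (β : F' →+* F))
    (chart_α : ∀ b ∈ chart R ({x'} : Set F'), α b ∈ chart R ({x} : Set F))
    (chart_β : ∀ b ∈ chart R ({x'} : Set F'), β b ∈ chart R ({x} : Set F))
    (hint_α : ∃ p : F'[X], p.Monic ∧ (∀ i, p.coeff i ∈ chart R ({x'} : Set F')) ∧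
      (p.map (α : F' →+* F)).eval x = 0)
    (hint_β : ∃ p : F'[X], p.Monic ∧ (∀ i, p.coeff i ∈ chart R ({x'} : Set F')) ∧
      (p.map (β : F' →+* F)).eval x = 0) :
    (IsSheet w x V₁ ∧ IsSheet w x V₂ ∧ IsSheet w x V₃) ∧
      ∀ W : ValuationSubring F, IsSheet w x W → W = V₁ ∨ W = V₂ ∨ W = V₃ := by
  haveI := dvr₁
  haveI := dvr₂
  haveI := dvr₃
  haveI : CharZero F := charZero_of_injective_algebraMap (algebraMap E F).injective
  have hinj : Function.Injective (algebraMap R F) := h919_injective E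
  have hxR : Transcendental R x := h919_transcendental E hx
  haveI : FiniteDimensional (baseField R x) F := h919_finiteDimensional E hfin
  have hwp : Prime w := hw.prime
  -- `R ⊆ V_i`
  have hR₁ : ∀ r : R, algebraMap R F r ∈ V₁ :=
    h919_algebraMap_mem_of_dvr hq.pos hqR hw V₁ (V₁.nonunits_subset hw₁)
  have hR₂ : ∀ r : R, algebraMap R F r ∈ V₂ :=
    h919_algebraMap_mem_of_dvr hq.pos hqR hw V₂ (V₂.nonunits_subset hw₂)
  have hR₃ : ∀ r : R, algebraMap R F r ∈ V₃ :=
    h919_algebraMap_mem_of_dvr hq.pos hqR hw V₃ (V₃.nonunits_subset hw₃)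
  -- the chart lies in `V_i`
  have hB₁ : ∀ c ∈ chart R ({x} : Set F), c ∈ V₁ := fun c hc =>
    h919_chart_le V₁ hR₁ (fun t ht => by rw [Set.mem_singleton_iff.1 ht]; exact hx₁) hc
  have hB₂ : ∀ c ∈ chart R ({x} : Set F), c ∈ V₂ := fun c hc =>
    h919_chart_le V₂ hR₂ (fun t ht => by rw [Set.mem_singleton_iff.1 ht]; exact hx₂) hc
  have hB₃ : ∀ c ∈ chart R ({x} : Set F), c ∈ V₃ := fun c hc =>
    h919_chart_le V₃ hR₃ (fun t ht => by rw [Set.mem_singleton_iff.1 ht]; exact hx₃) hc
  -- every sheet is one of the three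
  have hcases : ∀ W : ValuationSubring F, IsSheet w x W → W = V₁ ∨ W = V₂ ∨ W = V₃ :=
    fun W hW => h919_sheet_cases hinj hwp hxR V₁ V₂ V₃ hB₁ hB₂ hB₃ hw₁ hw₂ hw₃ hqep hW
  -- compatibility of `α`, `β` with `R`
  have hαR : ∀ r : R, (α : F' →+* F) (algebraMap R F' r) = algebraMap R F r := by
    intro r
    rw [IsScalarTower.algebraMap_apply R E F', IsScalarTower.algebraMap_apply R E F]
    exact α.commutes _
  have hβR : ∀ r : R, (β : F' →+* F) (algebraMap R F' r) = algebraMap R F r := by
    intro r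
    rw [IsScalarTower.algebraMap_apply R E F', IsScalarTower.algebraMap_apply R E F]
    exact β.commutes _
  -- propagation
  have h12 : IsSheet w x V₁ → IsSheet w x V₂ := fun h =>
    h919_isSheet_transfer hw hxR (α : F' →+* F) hαR V₂ V₁ hR₂ hR₁ hx₂ hw₂ hα.symm
      chart_α hint_α h
  have h21 : IsSheet w x V₂ → IsSheet w x V₁ := fun h =>
    h919_isSheet_transfer hw hxR (α : F' →+* F) hαR V₁ V₂ hR₁ hR₂ hx₁ hw₁ hα
      chart_α hint_α h
  have h23 : IsSheet w x V₂ → IsSheet w x V₃ := fun h =>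
    h919_isSheet_transfer hw hxR (β : F' →+* F) hβR V₃ V₂ hR₃ hR₂ hx₃ hw₃ hβ.symm
      chart_β hint_β h
  have h32 : IsSheet w x V₃ → IsSheet w x V₂ := fun h =>
    h919_isSheet_transfer hw hxR (β : F' →+* F) hβR V₂ V₃ hR₂ hR₃ hx₂ hw₂ hβ
      chart_β hint_β h
  -- there is a sheet
  obtain ⟨W, hW⟩ := sheets_nonempty (R := R) (Z := F) w hwp hxR
  have hW' : IsSheet w x W := hW
  have h2 : IsSheet w x V₂ := by
    rcases hcases W hW' with h | h | h
    · exact h12 (h ▸ hW')
    · exact h ▸ hW'
    · exact h32 (h ▸ hW')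
  exact ⟨⟨h21 h2, h2, h23 h2⟩, hcases⟩

end Top

section Unif

variable {R : Type u} [CommRing R] {F : Type u} [Field F] [Algebra R F]

/-- `hunif` of `H193.exists_pow_eq_of_base` from `Eng.UnifAt V w` (second half), `w ≠ 0`. -/
theorem h919_unif_of_unifAt (V : ValuationSubring F) {w : R} (hw0 : algebraMap R F w ≠ 0)
    (h : ∀ f ∈ V.nonunits, f * (algebraMap R F w)⁻¹ ∈ V) :
    ∀ a ∈ V.nonunits, ∃ b ∈ V, a = algebraMap R F w * b := by
  intro a ha
  refine ⟨a * (algebraMap R F w)⁻¹, h a ha, ?_⟩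
  rw [mul_comm a, ← mul_assoc, mul_inv_cancel₀ hw0, one_mul]

/-- `hdisc` of `H193.exists_pow_eq_of_base` for a discrete valuation subring with `w ∈ 𝔪_V`. -/
theorem h919_disc_of_dvr (V : ValuationSubring F) [IsDiscreteValuationRing V] {w : R}
    (hwV : algebraMap R F w ∈ V.nonunits) :
    ∀ g : F, ∃ k : ℕ, g * algebraMap R F w ^ k ∈ V := by
  intro g
  by_cases hg : g ∈ V
  · exact ⟨0, by rwa [pow_zero, mul_one]⟩
  have hg0 : g ≠ 0 := fun h => hg (h ▸ V.zero_mem)
  obtain ⟨e, he⟩ := h919_exists_pow_mul_inv_mem V (inv_ne_zero hg0)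
  refine ⟨e, ?_⟩
  have := he _ hwV
  rwa [inv_inv, mul_comm] at this

end Unif

end Fermat.Agent.S36.H919
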