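import Fermat.Agent.S36.Eng.Spec
import Fermat.Agent.S36.H919.SheetsTop

/-!
# S36 engine, ALG3 gap lemma G2 = SHEETS for `Eng.TripleCtx` (helper919)

Adapters from the frozen `Eng.TripleCtx` (Spec v1.3, on main) to the hypotheses of
`S36.H193.exists_pow_eq_of_three` / `exists_pow_eq_of_base`:

* `h919_isSheet_of_ctx` : `V₁`, `V₂`, `V₃` are sheets (`A2.H12.IsSheet w x`);
* **`h919_hsheets_of_ctx`** : every sheet is one of `V₁`, `V₂`, `V₃` (from `qep_f`);
* `h919_hunif_of_ctx`, `h919_hdisc_of_ctx` : `hunif`, `hdisc` for `V₀ = V₁`;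
* `h919_mem_nonunits₂_of_ctx` : `w ∈ 𝔪_{V₂}` (from `ram₂`, `q ≥ 2`).

For MOD3 (`Model3Statement`): the fields `base_i` follow from `dvr_i` and `w ∈ V_i`
(`h919_algebraMap_mem_of_dvr`, `SheetsBase.lean`), and `gauss₂`, `gauss₃` follow from `gauss₁`, the
`comap` table and `chart_*`, `int_*` (`h919_isSheet_transfer`, `SheetsProp.lean`;
`h919_sheets`, `SheetsTop.lean`).
-/

set_option autoImplicit false
set_option linter.style.haveILetI false
set_option linter.unusedSectionVars false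

namespace Fermat.Agent.S36.H919

open Polynomial
open Fermat.Agent.A2.H12 (IsSheet)
open Fermat.Agent.S18.H138
open Fermat.Agent.S36.H193

universe u

section Ctx

variable {R : Type u} [CommRing R] [IsDomain R] [IsDiscreteValuationRing R]
  [HenselianLocalRing R] [IsAlgClosed (IsLocalRing.ResidueField R)]
variable {E : Type u} [Field E] [CharZero E] [Algebra R E] [IsFractionRing R E]
variable {F : Type u} [Field F] [Algebra E F] [Algebra R F] [IsScalarTower R E F]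
variable {F' : Type u} [Field F'] [Algebra E F'] [Algebra R F'] [IsScalarTower R E F']
variable {w : R} {q : ℕ} {α β : F' →ₐ[E] F} {x : F} {x' : F'}
  {V₁ V₂ V₃ : ValuationSubring F} {V₁' V₂' : ValuationSubring F'}

/-- `w ∈ 𝔪_{V₂}`. -/
theorem h919_mem_nonunits₂_of_ctx (hq : 2 ≤ q)
    (h : Eng.TripleCtx w q α β x x' V₁ V₂ V₃ V₁' V₂') : algebraMap R F w ∈ V₂.nonunits := by
  obtain ⟨t, ⟨ht0, htn, -⟩, ⟨-, hu, -⟩⟩ := h.ram₂
  have h1 : algebraMap R F w = t ^ (q - 1) * (algebraMap R F w * (t ^ (q - 1))⁻¹) := by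
    rw [mul_comm (algebraMap R F w), ← mul_assoc, mul_inv_cancel₀ (pow_ne_zero _ ht0), one_mul]
  rw [h1]
  refine h919_mem_nonunits_mul V₂ ?_ hu
  obtain ⟨k, hk⟩ : ∃ k, q - 1 = k + 1 := ⟨q - 2, by omega⟩
  rw [hk, pow_succ, mul_comm]
  exact h919_mem_nonunits_mul V₂ htn (V₂.pow_mem (V₂.nonunits_subset htn) k)

/-- The three valuation subrings of a three-component context are sheets. -/
theorem h919_isSheet_of_ctx (hq : 2 ≤ q)
    (h : Eng.TripleCtx w q α β x x' V₁ V₂ V₃ V₁' V₂') :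
    IsSheet w x V₁ ∧ IsSheet w x V₂ ∧ IsSheet w x V₃ :=
  ⟨⟨h.base₁, h.x_unit₁.2.1, h.unif₁.2.1, h.gauss₁⟩,
    ⟨h.base₂, h.x_unit₂.2.1, h919_mem_nonunits₂_of_ctx hq h, h.gauss₂⟩,
    ⟨h.base₃, h.x_unit₃.2.1, h.unif₃.2.1, h.gauss₃⟩⟩

/-- **Every sheet of a three-component context is one of `V₁`, `V₂`, `V₃`.** -/
theorem h919_hsheets_of_ctx (hw : Irreducible w) (hq : 2 ≤ q)
    (h : Eng.TripleCtx w q α β x x' V₁ V₂ V₃ V₁' V₂') :
    ∀ W : ValuationSubring F, IsSheet w x W → W = V₁ ∨ W = V₂ ∨ W = V₃ := by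
  intro W hW
  haveI := h.dvr₁
  haveI := h.dvr₂
  haveI := h.dvr₃
  haveI : CharZero F := charZero_of_injective_algebraMap (algebraMap E F).injective
  haveI : FiniteDimensional (baseField R x) F := h919_finiteDimensional E h.hfin
  obtain ⟨s₁, s₂, s₃⟩ := h919_isSheet_of_ctx hq h
  exact h919_sheet_cases (h919_injective E) hw.prime (h919_transcendental E h.hx) V₁ V₂ V₃
    (sheet_chart_le s₁) (sheet_chart_le s₂) (sheet_chart_le s₃)
    s₁.2.2.1 s₂.2.2.1 s₃.2.2.1 h.qep_f hW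

/-- `hunif` of `H193.exists_pow_eq_of_base` for `V₀ = V₁`. -/
theorem h919_hunif_of_ctx (h : Eng.TripleCtx w q α β x x' V₁ V₂ V₃ V₁' V₂') :
    ∀ a ∈ V₁.nonunits, ∃ b ∈ V₁, a = algebraMap R F w * b :=
  h919_unif_of_unifAt V₁ h.unif₁.1 h.unif₁.2.2

/-- `hdisc` of `H193.exists_pow_eq_of_base` for `V₀ = V₁`. -/
theorem h919_hdisc_of_ctx (h : Eng.TripleCtx w q α β x x' V₁ V₂ V₃ V₁' V₂') :
    ∀ g : F, ∃ k : ℕ, g * algebraMap R F w ^ k ∈ V₁ :=
  haveI := h.dvr₁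
  h919_disc_of_dvr V₁ h.unif₁.2.1

end Ctx

end Fermat.Agent.S36.H919
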