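import Fermat.Agent.S36.H919.SheetsBase

/-!
# S36 engine, ALG3 gap lemma G2 (helper919), part 2: every sheet is one of `V₁`, `V₂`, `V₃`

Setting of `S36/H193/SheetsAll.lean`: `R` a noetherian domain with `R[X]` integrally closed,
`w ∈ R` prime, `F` a field of characteristic `0`, `x ∈ F` transcendental over `R`, `F` finite over
`baseField R x`.  A *sheet* is a valuation subring `W` of `F` with `A2.H12.IsSheet w x W`.

* `h919_eq_sheet_of_centre_le` : a valuation subring `V ⊇ chart R {x}` with `w ∈ 𝔪_V` whose centre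
  on the chart is contained in the centre of a sheet `W` is equal to `W`;
* `h919_sheet_cases` : if `V₁, V₂, V₃` are discrete valuation subrings containing the chart, with
  `w ∈ 𝔪_{V_i}`, satisfying the `q`-expansion principle
  `B ∩ w (V₁ ∩ V₂ ∩ V₃) ⊆ w B` (`Eng.Qep3`), then every sheet is one of `V₁, V₂, V₃`.
-/

set_option autoImplicit false
set_option linter.style.haveILetI false
set_option linter.unusedSectionVars false

namespace Fermat.Agent.S36.H919

open Polynomial
open Fermat.Agent.A2.H12 (IsSheet)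
open Fermat.Agent.S18.H138
open Fermat.Agent.S36.H193

universe u

section Val

variable {F : Type u} [Field F]

theorem h919_mem_nonunits_mul (V : ValuationSubring F) {a c : F} (ha : a ∈ V.nonunits)
    (hc : c ∈ V) : a * c ∈ V.nonunits := by
  rw [ValuationSubring.mem_nonunits_iff] at ha ⊢
  rw [map_mul]
  have h1 : V.valuation c ≤ 1 := (ValuationSubring.valuation_le_one_iff V c).2 hc
  calc V.valuation a * V.valuation c ≤ V.valuation a * 1 := by gcongr
    _ < 1 := by rwa [mul_one]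

theorem h919_inv_mem_of_not_nonunits (V : ValuationSubring F) {s : F} (hs : s ∈ V)
    (hs' : s ∉ V.nonunits) : s⁻¹ ∈ V := by
  rw [ValuationSubring.mem_nonunits_iff, not_lt] at hs'
  have h1 : V.valuation s ≤ 1 := (ValuationSubring.valuation_le_one_iff V s).2 hs
  have h2 : V.valuation s = 1 := le_antisymm h1 hs'
  rw [← ValuationSubring.valuation_le_one_iff, map_inv₀, h2, inv_one]

theorem h919_one_not_mem_nonunits (V : ValuationSubring F) : (1 : F) ∉ V.nonunits := by
  rw [ValuationSubring.mem_nonunits_iff, map_one]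
  exact lt_irrefl _

theorem h919_inv_mem_nonunits_of_not_mem (V : ValuationSubring F) {z : F} (hz : z ∉ V) :
    z⁻¹ ∈ V.nonunits := by
  rw [ValuationSubring.mem_nonunits_iff, map_inv₀]
  rw [← ValuationSubring.valuation_le_one_iff, not_le] at hz
  exact inv_lt_one_of_one_lt₀ hz

end Val

section Cases

variable {R : Type u} [CommRing R] [IsDomain R] {F : Type u} [Field F] [Algebra R F]
variable [IsNoetherianRing R] [IsIntegrallyClosed R[X]] [CharZero F]

/-- A valuation subring containing the chart, with `w` in its maximal ideal, whose centre on the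
chart is contained in the centre of a sheet `W`, is `W`. -/
theorem h919_eq_sheet_of_centre_le (hinjR : Function.Injective (algebraMap R F)) {w : R}
    (hw : Prime w) {x : F} (hx : Transcendental R x) [FiniteDimensional (baseField R x) F]
    {W : ValuationSubring F} (hW : IsSheet w x W) (V : ValuationSubring F)
    (hV : ∀ c ∈ chart R ({x} : Set F), c ∈ V) (hwV : algebraMap R F w ∈ V.nonunits)
    (hle : ∀ b : chart R ({x} : Set F), (b : F) ∈ V.nonunits → (b : F) ∈ W.nonunits) :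
    V = W := by
  set B := chart R ({x} : Set F) with hB
  have hWB : ∀ c ∈ B, c ∈ W := sheet_chart_le hW
  -- the centres agree
  have hmin := centre_mem_minimalPrimes hW
  have hcle : centreW V B hV ≤ centreW W B hWB := by
    intro b hb
    rw [mem_centreW] at hb ⊢
    exact hle b hb
  have hspan : Ideal.span {algebraMap R B w} ≤ centreW V B hV := by
    rw [Ideal.span_le, Set.singleton_subset_iff, SetLike.mem_coe, mem_centreW]
    exact hwV
  have hge : centreW W B hWB ≤ centreW V B hV :=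
    hmin.2 ⟨centreW_isPrime V B hV, hspan⟩ hcle
  have hiff : ∀ b : B, (b : F) ∈ W.nonunits → (b : F) ∈ V.nonunits := by
    intro b hb
    have := hge ((mem_centreW W B hWB b).2 hb)
    exact (mem_centreW V B hV b).1 this
  apply le_antisymm
  · -- `V ≤ W`
    intro z hz
    by_contra hzW
    have h1 : z⁻¹ ∈ W.nonunits := h919_inv_mem_nonunits_of_not_mem W hzW
    have h1W : z⁻¹ ∈ W := W.nonunits_subset h1
    obtain ⟨a, s, hs, hzas⟩ := (sheet_mem_iff hinjR hw hx hW z⁻¹).1 h1W
    have hsW : (s : F) ∈ W := hWB s s.2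
    have hs0 : (s : F) ≠ 0 := by
      intro h0
      apply hs
      rw [h0, ValuationSubring.mem_nonunits_iff, map_zero]
      exact zero_lt_one
    have ha : (a : F) = z⁻¹ * s := by
      rw [hzas, mul_assoc, inv_mul_cancel₀ hs0, mul_one]
    have haW : (a : F) ∈ W.nonunits := by
      rw [ha]
      exact h919_mem_nonunits_mul W h1 hsW
    have haV : (a : F) ∈ V.nonunits := hiff a haW
    have hsV : (s : F)⁻¹ ∈ V :=
      h919_inv_mem_of_not_nonunits V (hV s s.2) (fun h => hs (hle s h))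
    have hzV : z⁻¹ ∈ V.nonunits := by
      rw [hzas]
      exact h919_mem_nonunits_mul V haV hsV
    have h2 := h919_mem_nonunits_mul V hzV hz
    have hz0 : z ≠ 0 := by
      intro h0
      exact hzW (h0 ▸ W.zero_mem)
    rw [inv_mul_cancel₀ hz0] at h2
    exact h919_one_not_mem_nonunits V h2
  · -- `W ≤ V`
    intro z hz
    obtain ⟨a, s, hs, hzas⟩ := (sheet_mem_iff hinjR hw hx hW z).1 hz
    rw [hzas]
    exact V.mul_mem _ _ (hV a a.2)
      (h919_inv_mem_of_not_nonunits V (hV s s.2) (fun h => hs (hle s h)))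

/-- **Every sheet is one of `V₁`, `V₂`, `V₃`** (from the `q`-expansion principle `Qep3`). -/
theorem h919_sheet_cases (hinjR : Function.Injective (algebraMap R F)) {w : R}
    (hw : Prime w) {x : F} (hx : Transcendental R x) [FiniteDimensional (baseField R x) F]
    (V₁ V₂ V₃ : ValuationSubring F)
    [IsDiscreteValuationRing V₁] [IsDiscreteValuationRing V₂] [IsDiscreteValuationRing V₃]
    (hV₁ : ∀ c ∈ chart R ({x} : Set F), c ∈ V₁) (hV₂ : ∀ c ∈ chart R ({x} : Set F), c ∈ V₂)
    (hV₃ : ∀ c ∈ chart R ({x} : Set F), c ∈ V₃)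
    (hw₁ : algebraMap R F w ∈ V₁.nonunits) (hw₂ : algebraMap R F w ∈ V₂.nonunits)
    (hw₃ : algebraMap R F w ∈ V₃.nonunits)
    (hqep : ∀ b : chart R ({x} : Set F), (b : F) * (algebraMap R F w)⁻¹ ∈ V₁ →
      (b : F) * (algebraMap R F w)⁻¹ ∈ V₂ → (b : F) * (algebraMap R F w)⁻¹ ∈ V₃ →
      ∃ c : chart R ({x} : Set F), b = algebraMap R (chart R ({x} : Set F)) w * c)
    {W : ValuationSubring F} (hW : IsSheet w x W) : W = V₁ ∨ W = V₂ ∨ W = V₃ := by
  set B := chart R ({x} : Set F) with hB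
  have hWB : ∀ c ∈ B, c ∈ W := sheet_chart_le hW
  by_contra hcon
  rw [not_or, not_or] at hcon
  obtain ⟨h1, h2, h3⟩ := hcon
  have hw0 : algebraMap R F w ≠ 0 := by
    intro h0
    exact hw.ne_zero (hinjR (h0.trans (map_zero _).symm))
  -- separating elements
  have hsep : ∀ V : ValuationSubring F, (∀ c ∈ B, c ∈ V) → algebraMap R F w ∈ V.nonunits →
      W ≠ V → ∃ b : B, (b : F) ∈ V.nonunits ∧ (b : F) ∉ W.nonunits := by
    intro V hV hwV hne
    by_contra hno
    apply hne
    symm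
    refine h919_eq_sheet_of_centre_le hinjR hw hx hW V hV hwV (fun b hb => ?_)
    by_contra hbW
    exact hno ⟨b, hb, hbW⟩
  obtain ⟨b₁, hb₁, hb₁W⟩ := hsep V₁ hV₁ hw₁ h1
  obtain ⟨b₂, hb₂, hb₂W⟩ := hsep V₂ hV₂ hw₂ h2
  obtain ⟨b₃, hb₃, hb₃W⟩ := hsep V₃ hV₃ hw₃ h3
  obtain ⟨e₁, he₁⟩ := h919_exists_pow_mul_inv_mem V₁ hw0
  obtain ⟨e₂, he₂⟩ := h919_exists_pow_mul_inv_mem V₂ hw0
  obtain ⟨e₃, he₃⟩ := h919_exists_pow_mul_inv_mem V₃ hw0
  set b : B := b₁ ^ e₁ * b₂ ^ e₂ * b₃ ^ e₃ with hb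
  have hbF : (b : F) = (b₁ : F) ^ e₁ * (b₂ : F) ^ e₂ * (b₃ : F) ^ e₃ := by
    simp [hb]
  have hq₁ : (b : F) * (algebraMap R F w)⁻¹ ∈ V₁ := by
    have : (b : F) * (algebraMap R F w)⁻¹ =
        ((b₁ : F) ^ e₁ * (algebraMap R F w)⁻¹) * ((b₂ : F) ^ e₂ * (b₃ : F) ^ e₃) := by
      rw [hbF]; ring
    rw [this]
    exact V₁.mul_mem _ _ (he₁ _ hb₁)
      (V₁.mul_mem _ _ (V₁.pow_mem (hV₁ b₂ b₂.2) _) (V₁.pow_mem (hV₁ b₃ b₃.2) _))
  have hq₂ : (b : F) * (algebraMap R F w)⁻¹ ∈ V₂ := by
    have : (b : F) * (algebraMap R F w)⁻¹ =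
        ((b₂ : F) ^ e₂ * (algebraMap R F w)⁻¹) * ((b₁ : F) ^ e₁ * (b₃ : F) ^ e₃) := by
      rw [hbF]; ring
    rw [this]
    exact V₂.mul_mem _ _ (he₂ _ hb₂)
      (V₂.mul_mem _ _ (V₂.pow_mem (hV₂ b₁ b₁.2) _) (V₂.pow_mem (hV₂ b₃ b₃.2) _))
  have hq₃ : (b : F) * (algebraMap R F w)⁻¹ ∈ V₃ := by
    have : (b : F) * (algebraMap R F w)⁻¹ =
        ((b₃ : F) ^ e₃ * (algebraMap R F w)⁻¹) * ((b₁ : F) ^ e₁ * (b₂ : F) ^ e₂) := by
      rw [hbF]; ring
    rw [this]
    exact V₃.mul_mem _ _ (he₃ _ hb₃)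
      (V₃.mul_mem _ _ (V₃.pow_mem (hV₃ b₁ b₁.2) _) (V₃.pow_mem (hV₃ b₂ b₂.2) _))
  obtain ⟨c, hc⟩ := hqep b hq₁ hq₂ hq₃
  -- `b` is a non-unit of `W`
  have hbW : (b : F) ∈ W.nonunits := by
    have : (b : F) = algebraMap R F w * (c : F) := by
      have := congrArg (fun z : B => (z : F)) hc
      simpa using this
    rw [this]
    exact h919_mem_nonunits_mul W hW.2.2.1 (hWB c c.2)
  -- but it is a unit
  have hunit : ∀ b' : B, (b' : F) ∉ W.nonunits → W.valuation (b' : F) = 1 := by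
    intro b' hb'
    rw [ValuationSubring.mem_nonunits_iff, not_lt] at hb'
    exact le_antisymm ((ValuationSubring.valuation_le_one_iff W _).2 (hWB b' b'.2)) hb'
  rw [ValuationSubring.mem_nonunits_iff, hbF, map_mul, map_mul, map_pow, map_pow, map_pow,
    hunit b₁ hb₁W, hunit b₂ hb₂W, hunit b₃ hb₃W, one_pow, one_pow, one_pow, mul_one,
    mul_one] at hbW
  exact lt_irrefl _ hbW

end Cases

end Fermat.Agent.S36.H919
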