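import Fermat.Agent.S36.H193.WallSheets

/-!
# S36 engine, ALG3 gap lemma G2 (helper919), part 1: the base ring lies in every DVR

`R` a henselian local ring with algebraically closed residue field of characteristic `q`.

* `h919_exists_pow_eq_unit` : every unit of `R` is an `n`-th power for every `n` prime to `q`;
* `h919_unit_mem_of_dvr`    : every unit of `R` lies in every discrete valuation subring `V` of an
                              `R`-field `F` (no hypothesis relating `V` and `R`);
* `h919_algebraMap_mem_of_dvr` : if moreover `R` is a DVR with uniformiser `w` and `w ∈ V`, then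
                              `R ⊆ V`;
* `h919_chart_le_of_dvr`    : hence the charts `chart R {x}`, `chart R {x⁻¹}` lie in `V` as soon
                              as `x`, resp. `x⁻¹`, does;
* `h919_exists_pow_mul_inv_mem` : in a discrete valuation subring, a power of every non-unit is
                              divisible by a given non-zero element.

Mathlib only (plus `A2.H12.mem_of_isIntegral_of_le`).
-/

set_option autoImplicit false
set_option linter.style.haveILetI false
set_option linter.unusedSectionVars false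

namespace Fermat.Agent.S36.H919

open Polynomial
open Fermat.Agent.S18.H138

universe u

section Roots

variable {R : Type u} [CommRing R] [IsDomain R] [HenselianLocalRing R]
  [IsAlgClosed (IsLocalRing.ResidueField R)]

/-- A natural number prime to the residue characteristic is a unit. -/
theorem h919_isUnit_natCast {q : ℕ} (hq : (q : R) ∈ IsLocalRing.maximalIdeal R)
    {n : ℕ} (hn : Nat.Coprime n q) : IsUnit (n : R) := by
  by_contra hnu
  have hnm : (n : R) ∈ IsLocalRing.maximalIdeal R := (IsLocalRing.mem_maximalIdeal _).2 hnu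
  have hco : IsCoprime (n : ℤ) (q : ℤ) := Nat.isCoprime_iff_coprime.2 hn
  obtain ⟨a, b, hab⟩ := hco
  have h1 : ((a : R) * (n : R) + (b : R) * (q : R)) = 1 := by
    have := congrArg (fun z : ℤ => (z : R)) hab
    simpa using this
  have h2 : (1 : R) ∈ IsLocalRing.maximalIdeal R := by
    rw [← h1]
    exact Ideal.add_mem _ (Ideal.mul_mem_left _ _ hnm) (Ideal.mul_mem_left _ _ hq)
  exact (Ideal.ne_top_iff_one _).1 (IsLocalRing.maximalIdeal.isMaximal R).ne_top h2

/-- Every unit is an `n`-th power, `n` prime to the residue characteristic. -/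
theorem h919_exists_pow_eq_unit {q : ℕ} (hq : (q : R) ∈ IsLocalRing.maximalIdeal R)
    {n : ℕ} (hn0 : 0 < n) (hn : Nat.Coprime n q) {u : R} (hu : IsUnit u) :
    ∃ y : R, y ^ n = u := by
  obtain ⟨z, hz⟩ := IsAlgClosed.exists_pow_nat_eq (IsLocalRing.residue R u) hn0
  obtain ⟨a₀, rfl⟩ := IsLocalRing.residue_surjective z
  have hnunit : IsUnit (n : R) := h919_isUnit_natCast hq hn
  have hres : IsLocalRing.residue R (a₀ ^ n - u) = 0 := by
    rw [map_sub, map_pow, hz, sub_self]
  have hmem : a₀ ^ n - u ∈ IsLocalRing.maximalIdeal R :=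
    (IsLocalRing.residue_eq_zero_iff _).1 hres
  have ha₀ : IsUnit a₀ := by
    by_contra hna
    have h1 : a₀ ∈ IsLocalRing.maximalIdeal R := (IsLocalRing.mem_maximalIdeal _).2 hna
    have h2 : a₀ ^ n ∈ IsLocalRing.maximalIdeal R := Ideal.pow_mem_of_mem _ h1 n hn0
    have h3 : u ∈ IsLocalRing.maximalIdeal R := by
      have := Ideal.sub_mem _ h2 hmem
      simpa using this
    exact (IsLocalRing.mem_maximalIdeal _).1 h3 hu
  obtain ⟨a, ha, -⟩ := HenselianLocalRing.is_henselian (X ^ n - C u : R[X])
    (monic_X_pow_sub_C u hn0.ne') a₀ (by simpa using hmem) (by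
      simp only [derivative_sub, derivative_X_pow, derivative_C, sub_zero, eval_mul, eval_pow,
        eval_X, eval_C]
      exact (by simpa using hnunit.mul (ha₀.pow (n - 1))))
  refine ⟨a, ?_⟩
  have : eval a (X ^ n - C u : R[X]) = 0 := ha
  simpa [sub_eq_zero] using this

end Roots

section Mem

variable {R : Type u} [CommRing R] [IsDomain R] [HenselianLocalRing R]
  [IsAlgClosed (IsLocalRing.ResidueField R)]
variable {F : Type u} [Field F] [Algebra R F]

/-- **Units of `R` are units of every discrete valuation subring.** -/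
theorem h919_unit_mem_of_dvr {q : ℕ} (hq0 : 0 < q)
    (hq : (q : R) ∈ IsLocalRing.maximalIdeal R)
    (V : ValuationSubring F) [IsDiscreteValuationRing V] {u : R} (hu : IsUnit u) :
    algebraMap R F u ∈ V := by
  by_contra hnot
  have hu0 : algebraMap R F u ≠ 0 := fun h => hnot (h ▸ V.zero_mem)
  -- `a = u⁻¹` is a non-unit of `V`
  have hinv : (algebraMap R F u)⁻¹ ∈ V := (V.mem_or_inv_mem _).resolve_left hnot
  set a : V := ⟨(algebraMap R F u)⁻¹, hinv⟩ with ha
  have ha0 : a ≠ 0 := by
    intro h
    have := congrArg Subtype.val h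
    simp only [ha] at this
    exact (inv_ne_zero hu0) this
  -- `a ∈ 𝔪 ^ N` for all `N`
  have hall : ∀ N : ℕ, a ∈ (IsLocalRing.maximalIdeal V) ^ N := by
    intro N
    have hn0 : 0 < q * N + 1 := Nat.succ_pos _
    have hn : Nat.Coprime (q * N + 1) q := by
      rw [Nat.coprime_comm]
      have : Nat.Coprime q (q * N + 1) := by
        rw [Nat.coprime_mul_left_add_right]
        exact Nat.coprime_one_right q
      exact this
    obtain ⟨y, hy⟩ := h919_exists_pow_eq_unit hq hn0 hn hu
    have hyF : (algebraMap R F y) ^ (q * N + 1) = algebraMap R F u := by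
      rw [← map_pow, hy]
    have hy0 : algebraMap R F y ≠ 0 := by
      intro h
      rw [h, zero_pow hn0.ne'] at hyF
      exact hu0 hyF.symm
    -- `y ∉ V`
    have hyV : algebraMap R F y ∉ V := by
      intro h
      exact hnot (hyF ▸ V.pow_mem h _)
    have hbV : (algebraMap R F y)⁻¹ ∈ V := (V.mem_or_inv_mem _).resolve_left hyV
    set b : V := ⟨(algebraMap R F y)⁻¹, hbV⟩ with hb
    have hbm : b ∈ IsLocalRing.maximalIdeal V := by
      rw [IsLocalRing.mem_maximalIdeal, mem_nonunits_iff]
      intro hbu
      obtain ⟨c, hc⟩ := hbu.exists_right_inv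
      have h1 : (algebraMap R F y)⁻¹ * (c : F) = 1 := by
        have := congrArg Subtype.val hc
        simpa [hb] using this
      have h2 : (c : F) = algebraMap R F y := by
        field_simp at h1
        exact h1
      exact hyV (h2 ▸ c.2)
    have hab : a = b ^ (q * N + 1) := by
      apply Subtype.ext
      simp only [ha, hb, SubmonoidClass.coe_pow, inv_pow, hyF]
    rw [hab]
    have h1 : b ^ (q * N + 1) ∈ (IsLocalRing.maximalIdeal V) ^ (q * N + 1) :=
      Ideal.pow_mem_pow hbm _
    have hNle : N ≤ q * N + 1 := by nlinarith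
    exact Ideal.pow_le_pow_right hNle h1
  have hbot : a ∈ (⨅ N : ℕ, (IsLocalRing.maximalIdeal V) ^ N) := by
    rw [Ideal.mem_iInf]
    exact hall
  rw [Ideal.iInf_pow_eq_bot_of_isLocalRing _ (IsLocalRing.maximalIdeal.isMaximal V).ne_top] at hbot
  exact ha0 ((Ideal.mem_bot).1 hbot)

/-- **`R ⊆ V`** for every discrete valuation subring `V` containing the uniformiser of `R`. -/
theorem h919_algebraMap_mem_of_dvr [IsDiscreteValuationRing R] {q : ℕ} (hq0 : 0 < q)
    (hq : (q : R) ∈ IsLocalRing.maximalIdeal R) {w : R} (hw : Irreducible w)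
    (V : ValuationSubring F) [IsDiscreteValuationRing V] (hwV : algebraMap R F w ∈ V) (r : R) :
    algebraMap R F r ∈ V := by
  by_cases hr : r = 0
  · subst hr
    rw [map_zero]
    exact V.zero_mem
  obtain ⟨n, u, hu⟩ := IsDiscreteValuationRing.eq_unit_mul_pow_irreducible hr hw
  rw [hu, map_mul, map_pow]
  exact V.mul_mem _ _ (h919_unit_mem_of_dvr hq0 hq V u.isUnit) (V.pow_mem hwV n)

/-- A chart lies in a valuation subring containing `R` and the coordinates. -/
theorem h919_chart_le (V : ValuationSubring F) (hR : ∀ r : R, algebraMap R F r ∈ V)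
    {T : Set F} (hT : ∀ t ∈ T, t ∈ V) {c : F} (hc : c ∈ chart R T) : c ∈ V := by
  refine Fermat.Agent.A2.H12.mem_of_isIntegral_of_le V (Algebra.adjoin R T) ?_ (mem_chart.1 hc)
  intro a ha
  induction ha using Algebra.adjoin_induction with
  | mem y hy => exact hT y hy
  | algebraMap r => exact hR r
  | add y z _ _ hy hz => exact V.add_mem _ _ hy hz
  | mul y z _ _ hy hz => exact V.mul_mem _ _ hy hz

/-- The charts lie in every discrete valuation subring containing `w` and `x`
(resp. `x⁻¹`). -/
theorem h919_chart_le_of_dvr [IsDiscreteValuationRing R] {q : ℕ} (hq0 : 0 < q)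
    (hq : (q : R) ∈ IsLocalRing.maximalIdeal R) {w : R} (hw : Irreducible w)
    (V : ValuationSubring F) [IsDiscreteValuationRing V] (hwV : algebraMap R F w ∈ V)
    {T : Set F} (hT : ∀ t ∈ T, t ∈ V) : ∀ c ∈ chart R T, c ∈ V := fun _ hc =>
  h919_chart_le V (h919_algebraMap_mem_of_dvr hq0 hq hw V hwV) hT hc

end Mem

section Div

variable {F : Type*} [Field F]

/-- In a discrete valuation subring, a fixed power of every non-unit is divisible by a given
non-zero element. -/
theorem h919_exists_pow_mul_inv_mem (V : ValuationSubring F) [IsDiscreteValuationRing V]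
    {c : F} (hc : c ≠ 0) : ∃ e : ℕ, ∀ f ∈ V.nonunits, f ^ e * c⁻¹ ∈ V := by
  by_cases hcV : c ∈ V
  · set c' : V := ⟨c, hcV⟩ with hc'
    have hc'0 : c' ≠ 0 := by
      intro h
      exact hc (congrArg Subtype.val h)
    have hex : ∃ e : ℕ, c' ∉ (IsLocalRing.maximalIdeal V) ^ e := by
      by_contra hcon
      rw [not_exists] at hcon
      have hcon : ∀ e : ℕ, c' ∈ (IsLocalRing.maximalIdeal V) ^ e := fun e => not_not.1 (hcon e)
      have hbot : c' ∈ (⨅ N : ℕ, (IsLocalRing.maximalIdeal V) ^ N) := by
        rw [Ideal.mem_iInf]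
        exact hcon
      rw [Ideal.iInf_pow_eq_bot_of_isLocalRing _
        (IsLocalRing.maximalIdeal.isMaximal V).ne_top] at hbot
      exact hc'0 ((Ideal.mem_bot).1 hbot)
    obtain ⟨e, he⟩ := hex
    refine ⟨e, fun f hf => ?_⟩
    have hfV : f ∈ V := V.nonunits_subset hf
    set f' : V := ⟨f, hfV⟩ with hf'
    have hfm : f' ∈ IsLocalRing.maximalIdeal V := by
      rw [ValuationSubring.mem_nonunits_iff_exists_mem_maximalIdeal] at hf
      obtain ⟨h1, h2⟩ := hf
      exact h2
    rcases ValuationRing.dvd_total c' (f' ^ e) with h | h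
    · obtain ⟨d, hd⟩ := h
      have h1 : f ^ e = c * (d : F) := by
        have := congrArg Subtype.val hd
        simpa [hf', hc'] using this
      rw [h1, mul_comm c, mul_assoc, mul_inv_cancel₀ hc, mul_one]
      exact d.2
    · exfalso
      obtain ⟨d, hd⟩ := h
      apply he
      rw [hd]
      exact Ideal.mul_mem_right _ _ (Ideal.pow_mem_pow hfm e)
  · refine ⟨0, fun f _ => ?_⟩
    rw [pow_zero, one_mul]
    exact (V.mem_or_inv_mem c).resolve_left hcV

end Div

end Fermat.Agent.S36.H919
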