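import Fermat.Agent.S36.H919.SheetsProp

/-!
# S36 engine, MOD3 helper (helper919): sheets restrict to sheets; completeness goes up

`α : F' → F` over `R`, the chart `chart R {x'}` of `F'` maps into the chart `chart R {x}` of `F`
and `x` is integral over its image (fields `chart_α`, `int_α` of `Eng.TripleCtx`).

* `h919_isSheet_comap` : the restriction `V.comap α` of a sheet `V` of `F` (w.r.t. `x`) is a sheet
  of `F'` (w.r.t. `x'`).
* `h919_complete_of_comap` : COMPLETENESS goes up: if every sheet of `F'` is `V₁'` or `V₂'`, the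
  only valuation subrings of `F` over `V₁'` among the sheets are `V₁`, `V₂`, and the only one over
  `V₂'` is `V₃`, then every sheet of `F` is `V₁`, `V₂` or `V₃`
  (= `hsheets` of `S36.H193.qep3_of_sheets`, which gives `Eng.Qep3`).
-/

set_option autoImplicit false
set_option linter.style.haveILetI false
set_option linter.unusedSectionVars false

namespace Fermat.Agent.S36.H919

open Polynomial
open Fermat.Agent.A2.H12 (IsSheet)
open Fermat.Agent.S18.H138
open Fermat.Agent.S36.H193

universe u

section Down

variable {R : Type u} [CommRing R] [IsDomain R] [IsDiscreteValuationRing R]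
  {F : Type u} [Field F] [Algebra R F] {F' : Type u} [Field F'] [Algebra R F']

/-- **The restriction of a sheet is a sheet.** -/
theorem h919_isSheet_comap {w : R} (hw : Irreducible w) {x : F} (hx : Transcendental R x)
    (α : F' →+* F) (hα : ∀ r : R, α (algebraMap R F' r) = algebraMap R F r)
    {x' : F'} (hchart : ∀ b ∈ chart R ({x'} : Set F'), α b ∈ chart R ({x} : Set F))
    (hint : ∃ p : F'[X], p.Monic ∧ (∀ i, p.coeff i ∈ chart R ({x'} : Set F')) ∧
      (p.map α).eval x = 0)
    {V : ValuationSubring F} (hV : IsSheet w x V) : IsSheet w x' (V.comap α) := by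
  have hRV : ∀ r : R, algebraMap R F r ∈ V := hV.1
  have hR' : ∀ r : R, algebraMap R F' r ∈ V.comap α := by
    intro r
    rw [ValuationSubring.mem_comap, hα]
    exact hRV r
  have hx' : x' ∈ V.comap α := by
    rw [ValuationSubring.mem_comap]
    exact hV.chart_le (T := {x}) (by simp) (hchart x' (mem_chart_of_mem rfl))
  have hw' : algebraMap R F' w ∈ (V.comap α).nonunits := by
    rw [Fermat.Agent.A2.H12.mem_nonunits_comap, hα]
    exact hV.2.2.1
  by_contra hno
  have h1 : ResInt R (V.comap α) x' :=
    h919_resInt_of_not_isSheet hw (V.comap α) hR' hx' hw' hno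
  have h2 : ∀ b ∈ chart R ({x'} : Set F'), ResInt R (V.comap α) b :=
    h919_resInt_chart (V.comap α) hR' h1
  obtain ⟨p, hp, hpc, hpx⟩ := hint
  have h3 : ∀ i, ResInt R V ((p.map α).coeff i) := by
    intro i
    rw [coeff_map]
    exact (h919_resInt_comap α hα V _).1 (h2 _ (hpc i))
  have h4 : ResInt R V x := h919_resInt_of_root V hRV (p.map α) (hp.map α) h3 hpx
  exact h919_not_resInt_of_isSheet hx hV h4

/-- **Completeness goes up.** -/
theorem h919_complete_of_comap {w : R} (hw : Irreducible w) {x : F} (hx : Transcendental R x)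
    (α : F' →+* F) (hα : ∀ r : R, α (algebraMap R F' r) = algebraMap R F r)
    {x' : F'} (hchart : ∀ b ∈ chart R ({x'} : Set F'), α b ∈ chart R ({x} : Set F))
    (hint : ∃ p : F'[X], p.Monic ∧ (∀ i, p.coeff i ∈ chart R ({x'} : Set F')) ∧
      (p.map α).eval x = 0)
    (V₁ V₂ V₃ : ValuationSubring F) (V₁' V₂' : ValuationSubring F')
    (hdown : ∀ W' : ValuationSubring F', IsSheet w x' W' → W' = V₁' ∨ W' = V₂')
    (hup₁ : ∀ V : ValuationSubring F, IsSheet w x V → V.comap α = V₁' → V = V₁ ∨ V = V₂)
    (hup₂ : ∀ V : ValuationSubring F, IsSheet w x V → V.comap α = V₂' → V = V₃) :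
    ∀ V : ValuationSubring F, IsSheet w x V → V = V₁ ∨ V = V₂ ∨ V = V₃ := by
  intro V hV
  rcases hdown _ (h919_isSheet_comap hw hx α hα hchart hint hV) with h | h
  · rcases hup₁ V hV h with h1 | h2
    · exact Or.inl h1
    · exact Or.inr (Or.inl h2)
  · exact Or.inr (Or.inr (hup₂ V hV h))

end Down

end Fermat.Agent.S36.H919
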