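import Fermat.Agent.S36.H919.Sheets

/-!
# S36 engine, ALG3 gap lemma G2 (helper919), part 3: propagation of sheets

`ResInt R V y` : the residue of `y` at the valuation subring `V` is integral over (the image of)
`R`, in elementwise form: some monic `P ∈ R[X]` has `P(y) ∈ 𝔪_V`.

A valuation subring `V ⊇ R[x]` with `w ∈ 𝔪_V` is a sheet iff the residue of `x` is NOT integral
over `R` (`h919_resInt_of_not_isSheet`, `h919_not_resInt_of_isSheet`).  Residual integrality
passes to the chart (`h919_resInt_chart`), through `comap` (`h919_resInt_comap`) and along integral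
extensions (`h919_resInt_of_root`).  Hence:

* `h919_isSheet_transfer` : if `V` and `V'` induce the same valuation subring on `F'` via
  `α : F' → F`, the chart of `F` is integral over the image of the chart of `F'`, and `V'` is a
  sheet, then `V` is a sheet.
-/

set_option autoImplicit false
set_option linter.style.haveILetI false
set_option linter.unusedSectionVars false

namespace Fermat.Agent.S36.H919

open Polynomial
open Fermat.Agent.A2.H12 (IsSheet)
open Fermat.Agent.S18.H138
open Fermat.Agent.S36.H193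

universe u

section ResInt

variable (R : Type u) [CommRing R] {F : Type u} [Field F] [Algebra R F]

/-- The residue of `y` at `V` is integral over `R` (elementwise form). -/
def ResInt (V : ValuationSubring F) (y : F) : Prop :=
  ∃ P : R[X], P.Monic ∧ aeval y P ∈ V.nonunits

variable {R}

/-- The homomorphism `R → V`. -/
def h919_toV (V : ValuationSubring F) (hRV : ∀ r : R, algebraMap R F r ∈ V) : R →+* V where
  toFun r := ⟨algebraMap R F r, hRV r⟩
  map_one' := Subtype.ext (map_one _)
  map_mul' _ _ := Subtype.ext (map_mul _ _ _)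
  map_zero' := Subtype.ext (map_zero _)
  map_add' _ _ := Subtype.ext (map_add _ _ _)

/-- The homomorphism from `R` to the residue field of `V`. -/
noncomputable def h919_resHom (V : ValuationSubring F) (hRV : ∀ r : R, algebraMap R F r ∈ V) :
    R →+* IsLocalRing.ResidueField V :=
  (IsLocalRing.residue V).comp (h919_toV V hRV)

theorem h919_coe_eval₂_toV (V : ValuationSubring F) (hRV : ∀ r : R, algebraMap R F r ∈ V)
    (y : V) (P : R[X]) : ((eval₂ (h919_toV V hRV) y P : V) : F) = aeval (y : F) P := by
  have h1 := Polynomial.hom_eval₂ P (h919_toV V hRV) (V.subtype) y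
  rw [aeval_def]
  have h2 : (V.subtype).comp (h919_toV V hRV) = algebraMap R F := by
    ext r
    rfl
  rw [h2] at h1
  exact h1

/-- `ResInt` implies membership. -/
theorem h919_resInt_mem (V : ValuationSubring F) (hRV : ∀ r : R, algebraMap R F r ∈ V)
    {y : F} (h : ResInt R V y) : y ∈ V := by
  obtain ⟨P, hP, hPy⟩ := h
  haveI : Nontrivial R := RingHom.domain_nontrivial (algebraMap R F)
  have hc : aeval y P ∈ V := V.nonunits_subset hPy
  by_cases hdeg : P.natDegree = 0
  · exfalso
    have h1 : P = 1 := by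
      rw [Polynomial.eq_C_of_natDegree_eq_zero hdeg]
      have : P.coeff 0 = 1 := by
        have := hP.coeff_natDegree
        rwa [hdeg] at this
      rw [this, map_one]
    rw [h1, map_one] at hPy
    exact h919_one_not_mem_nonunits V hPy
  -- `y` is integral over `V`
  set Q : (V : Type u)[X] := P.map (h919_toV V hRV) - C ⟨aeval y P, hc⟩ with hQ
  have hQm : Q.Monic := by
    rw [hQ]
    refine Polynomial.Monic.sub_of_left (hP.map _) ?_
    rw [Polynomial.degree_map_eq_of_leadingCoeff_ne_zero]
    · refine lt_of_le_of_lt Polynomial.degree_C_le ?_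
      rw [Polynomial.degree_eq_natDegree hP.ne_zero]
      exact_mod_cast Nat.pos_of_ne_zero hdeg
    · rw [hP.leadingCoeff, map_one]
      exact one_ne_zero
  have hint : IsIntegral V y := by
    refine ⟨Q, hQm, ?_⟩
    rw [hQ, eval₂_sub, eval₂_C, eval₂_map]
    have h2 : (algebraMap V F).comp (h919_toV V hRV) = algebraMap R F := by
      ext r
      rfl
    rw [h2, ← aeval_def]
    exact sub_self _
  obtain ⟨z, hz⟩ := (IsIntegrallyClosed.isIntegral_iff (R := V) (K := F)).1 hint
  rw [← hz]
  exact z.2

/-- Vanishing in the residue field of `V`. -/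
theorem h919_eval₂_resHom_eq_zero_iff (V : ValuationSubring F)
    (hRV : ∀ r : R, algebraMap R F r ∈ V) {y : F} (hy : y ∈ V) (P : R[X]) :
    eval₂ (h919_resHom V hRV) (IsLocalRing.residue V ⟨y, hy⟩) P = 0 ↔
      aeval y P ∈ V.nonunits := by
  have h1 := Polynomial.hom_eval₂ P (h919_toV V hRV) (IsLocalRing.residue V) ⟨y, hy⟩
  rw [h919_resHom, ← h1, IsLocalRing.residue_eq_zero_iff,
    ValuationSubring.mem_nonunits_iff_exists_mem_maximalIdeal]
  constructor
  · intro h
    refine ⟨?_, ?_⟩
    · rw [← h919_coe_eval₂_toV V hRV ⟨y, hy⟩ P]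
      exact (eval₂ (h919_toV V hRV) ⟨y, hy⟩ P).2
    · convert h using 1
      exact Subtype.ext (h919_coe_eval₂_toV V hRV ⟨y, hy⟩ P).symm
  · rintro ⟨h1, h2⟩
    convert h2 using 1
    exact Subtype.ext (h919_coe_eval₂_toV V hRV ⟨y, hy⟩ P)

/-- `ResInt` in terms of the residue field. -/
theorem h919_resInt_iff (V : ValuationSubring F) (hRV : ∀ r : R, algebraMap R F r ∈ V)
    {y : F} (hy : y ∈ V) :
    ResInt R V y ↔ (h919_resHom V hRV).IsIntegralElem (IsLocalRing.residue V ⟨y, hy⟩) := by
  constructor
  · rintro ⟨P, hP, hPy⟩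
    exact ⟨P, hP, (h919_eval₂_resHom_eq_zero_iff V hRV hy P).2 hPy⟩
  · rintro ⟨P, hP, hPy⟩
    exact ⟨P, hP, (h919_eval₂_resHom_eq_zero_iff V hRV hy P).1 hPy⟩

/-- Elements of `R` are residually integral. -/
theorem h919_resInt_algebraMap (V : ValuationSubring F) (r : R) :
    ResInt R V (algebraMap R F r) := by
  refine ⟨X - C r, monic_X_sub_C r, ?_⟩
  rw [map_sub, aeval_X, aeval_C, sub_self, ValuationSubring.mem_nonunits_iff, map_zero]
  exact zero_lt_one

theorem h919_resInt_add (V : ValuationSubring F) (hRV : ∀ r : R, algebraMap R F r ∈ V)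
    {y z : F} (hy : ResInt R V y) (hz : ResInt R V z) : ResInt R V (y + z) := by
  have hyV := h919_resInt_mem V hRV hy
  have hzV := h919_resInt_mem V hRV hz
  rw [h919_resInt_iff V hRV hyV] at hy
  rw [h919_resInt_iff V hRV hzV] at hz
  rw [h919_resInt_iff V hRV (V.add_mem _ _ hyV hzV)]
  letI : Algebra R (IsLocalRing.ResidueField V) := (h919_resHom V hRV).toAlgebra
  have h1 : IsIntegral R (IsLocalRing.residue V ⟨y, hyV⟩) := hy
  have h2 : IsIntegral R (IsLocalRing.residue V ⟨z, hzV⟩) := hz
  have h3 := h1.add h2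
  rw [← map_add] at h3
  exact h3

theorem h919_resInt_mul (V : ValuationSubring F) (hRV : ∀ r : R, algebraMap R F r ∈ V)
    {y z : F} (hy : ResInt R V y) (hz : ResInt R V z) : ResInt R V (y * z) := by
  have hyV := h919_resInt_mem V hRV hy
  have hzV := h919_resInt_mem V hRV hz
  rw [h919_resInt_iff V hRV hyV] at hy
  rw [h919_resInt_iff V hRV hzV] at hz
  rw [h919_resInt_iff V hRV (V.mul_mem _ _ hyV hzV)]
  letI : Algebra R (IsLocalRing.ResidueField V) := (h919_resHom V hRV).toAlgebra
  have h1 : IsIntegral R (IsLocalRing.residue V ⟨y, hyV⟩) := hy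
  have h2 : IsIntegral R (IsLocalRing.residue V ⟨z, hzV⟩) := hz
  have h3 := h1.mul h2
  rw [← map_mul] at h3
  exact h3

/-- **Residual integrality passes to roots of monic polynomials.** -/
theorem h919_resInt_of_root (V : ValuationSubring F) (hRV : ∀ r : R, algebraMap R F r ∈ V)
    (p : F[X]) (hp : p.Monic) (hcoef : ∀ i, ResInt R V (p.coeff i)) {y : F}
    (hy : p.eval y = 0) : ResInt R V y := by
  classical
  -- descend `p` to `V`
  have hlift : p ∈ Polynomial.lifts (V.subtype) := by
    rw [Polynomial.lifts_iff_coeff_lifts]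
    intro n
    exact ⟨⟨p.coeff n, h919_resInt_mem V hRV (hcoef n)⟩, rfl⟩
  obtain ⟨q, hqp, -, hqm⟩ := Polynomial.lifts_and_degree_eq_and_monic hlift hp
  have hint : IsIntegral V y := by
    refine ⟨q, hqm, ?_⟩
    have : eval₂ (algebraMap V F) y q = eval y (q.map (V.subtype)) := by
      rw [eval_map]
      rfl
    rw [this, hqp, hy]
  obtain ⟨y', hy'⟩ := (IsIntegrallyClosed.isIntegral_iff (R := V) (K := F)).1 hint
  have hyV : y ∈ V := by
    rw [← hy']
    exact y'.2
  have hy'' : y' = ⟨y, hyV⟩ := Subtype.ext hy'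
  have hq0 : q.eval y' = 0 := by
    apply Subtype.ext
    have h1 := Polynomial.hom_eval₂ q (RingHom.id V) (V.subtype) y'
    rw [RingHom.comp_id] at h1
    have h2 : eval₂ (V.subtype) ((V.subtype) y') q = eval y (q.map (V.subtype)) := by
      rw [eval_map]
      congr 1
    rw [h2, hqp, hy] at h1
    rw [eval₂_id] at h1
    exact h1
  rw [h919_resInt_iff V hRV hyV, ← hy'']
  -- the residue field
  letI : Algebra R (IsLocalRing.ResidueField V) := (h919_resHom V hRV).toAlgebra
  set κ := IsLocalRing.ResidueField V with hκ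
  set A := integralClosure R κ with hA
  have hcoefA : ∀ n, (q.map (IsLocalRing.residue V)).coeff n ∈ Set.range (algebraMap A κ) := by
    intro n
    rw [coeff_map]
    have hn : ((q.coeff n : V) : F) = p.coeff n := by
      rw [← hqp, coeff_map]
      rfl
    have h1 : ResInt R V ((q.coeff n : V) : F) := by
      rw [hn]
      exact hcoef n
    rw [h919_resInt_iff V hRV (q.coeff n).2] at h1
    have h2 : IsIntegral R (IsLocalRing.residue V (q.coeff n)) := h1
    exact ⟨⟨_, h2⟩, rfl⟩
  have hliftA : q.map (IsLocalRing.residue V) ∈ Polynomial.lifts (algebraMap A κ) := by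
    rw [Polynomial.lifts_iff_coeff_lifts]
    exact hcoefA
  obtain ⟨q₂, hq₂, -, hq₂m⟩ := Polynomial.lifts_and_degree_eq_and_monic hliftA
    (hqm.map (IsLocalRing.residue V))
  have hintA : IsIntegral A (IsLocalRing.residue V y') := by
    refine ⟨q₂, hq₂m, ?_⟩
    rw [← eval_map, hq₂, eval_map]
    have h1 := Polynomial.hom_eval₂ q (RingHom.id V) (IsLocalRing.residue V) y'
    rw [RingHom.comp_id, eval₂_id, hq0, map_zero] at h1
    exact h1.symm
  have hfin : IsIntegral R (IsLocalRing.residue V y') := isIntegral_trans (A := A) _ hintA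
  exact hfin

/-- Residual integrality of `x` passes to `R[x]`. -/
theorem h919_resInt_adjoin (V : ValuationSubring F) (hRV : ∀ r : R, algebraMap R F r ∈ V)
    {x : F} (hx : ResInt R V x) : ∀ a ∈ Algebra.adjoin R ({x} : Set F), ResInt R V a := by
  intro a ha
  induction ha using Algebra.adjoin_induction with
  | mem y hy =>
    rw [Set.mem_singleton_iff] at hy
    rw [hy]
    exact hx
  | algebraMap r => exact h919_resInt_algebraMap V r
  | add y z _ _ hy hz => exact h919_resInt_add V hRV hy hz
  | mul y z _ _ hy hz => exact h919_resInt_mul V hRV hy hz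

/-- Residual integrality of `x` passes to the chart `chart R {x}`. -/
theorem h919_resInt_chart (V : ValuationSubring F) (hRV : ∀ r : R, algebraMap R F r ∈ V)
    {x : F} (hx : ResInt R V x) : ∀ b ∈ chart R ({x} : Set F), ResInt R V b := by
  intro b hb
  obtain ⟨P, hP, hPb⟩ := mem_chart.1 hb
  refine h919_resInt_of_root V hRV (P.map (algebraMap (Algebra.adjoin R ({x} : Set F)) F))
    (hP.map _) (fun i => ?_) ?_
  · rw [coeff_map]
    exact h919_resInt_adjoin V hRV hx _ (P.coeff i).2
  · rw [eval_map]
    exact hPb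

end ResInt

section Comap

variable {R : Type u} [CommRing R] {F : Type u} [Field F] [Algebra R F]
  {F' : Type u} [Field F'] [Algebra R F']

/-- Residual integrality and `comap`. -/
theorem h919_resInt_comap (α : F' →+* F)
    (hα : ∀ r : R, α (algebraMap R F' r) = algebraMap R F r) (V : ValuationSubring F) (b : F') :
    ResInt R (V.comap α) b ↔ ResInt R V (α b) := by
  have key : ∀ P : R[X], α (aeval b P) = aeval (α b) P := by
    intro P
    let αA : F' →ₐ[R] F := { α with commutes' := hα }
    exact (aeval_algHom_apply αA b P).symm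
  constructor
  · rintro ⟨P, hP, hPb⟩
    refine ⟨P, hP, ?_⟩
    rw [← key]
    exact (Fermat.Agent.A2.H12.mem_nonunits_comap V α _).1 hPb
  · rintro ⟨P, hP, hPb⟩
    refine ⟨P, hP, ?_⟩
    rw [← key] at hPb
    exact (Fermat.Agent.A2.H12.mem_nonunits_comap V α _).2 hPb

end Comap

section Sheet

variable {R : Type u} [CommRing R] [IsDomain R] [IsDiscreteValuationRing R]
  {F : Type u} [Field F] [Algebra R F]

/-- A valuation subring over `R[x]` with `w ∈ 𝔪_V` which is NOT a sheet has `x` residually
integral (= residually algebraic) over `R`. -/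
theorem h919_resInt_of_not_isSheet {w : R} (hw : Irreducible w) {x : F} (V : ValuationSubring F)
    (hRV : ∀ r : R, algebraMap R F r ∈ V) (hxV : x ∈ V)
    (hwV : algebraMap R F w ∈ V.nonunits) (h : ¬ IsSheet w x V) : ResInt R V x := by
  classical
  have hex : ∃ P : R[X], (∃ i, ¬ w ∣ P.coeff i) ∧ (aeval x P)⁻¹ ∉ V := by
    by_contra hno
    apply h
    refine ⟨hRV, hxV, hwV, fun P hP => ?_⟩
    by_contra hPV
    exact hno ⟨P, hP, hPV⟩
  obtain ⟨P, ⟨i, hi⟩, hPV⟩ := hex
  have hPn : aeval x P ∈ V.nonunits := by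
    have := h919_inv_mem_nonunits_of_not_mem V hPV
    rwa [inv_inv] at this
  rw [h919_resInt_iff V hRV hxV]
  set φ := h919_resHom V hRV with hφ
  set z := IsLocalRing.residue V ⟨x, hxV⟩ with hz
  have hz0 : eval₂ φ z P = 0 := (h919_eval₂_resHom_eq_zero_iff V hRV hxV P).2 hPn
  -- `φ` kills the maximal ideal
  have hφw : φ w = 0 := by
    have h1 : eval₂ φ (IsLocalRing.residue V ⟨algebraMap R F w, hRV w⟩) (C w : R[X]) = 0 := by
      rw [h919_eval₂_resHom_eq_zero_iff V hRV (hRV w) (C w), aeval_C]
      exact hwV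
    rwa [eval₂_C] at h1
  have hunit : ∀ c : R, φ c ≠ 0 → IsUnit c := by
    intro c hc
    by_contra hcu
    have h1 : c ∈ IsLocalRing.maximalIdeal R := (IsLocalRing.mem_maximalIdeal _).2 hcu
    rw [hw.maximalIdeal_eq, Ideal.mem_span_singleton] at h1
    obtain ⟨d, rfl⟩ := h1
    rw [map_mul, hφw, zero_mul] at hc
    exact hc rfl
  have hφi : φ (P.coeff i) ≠ 0 := by
    have h1 : IsUnit (P.coeff i) := by
      by_contra hcu
      have h1 : P.coeff i ∈ IsLocalRing.maximalIdeal R := (IsLocalRing.mem_maximalIdeal _).2 hcu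
      rw [hw.maximalIdeal_eq, Ideal.mem_span_singleton] at h1
      exact hi h1
    exact (h1.map φ).ne_zero
  have hP0 : P.map φ ≠ 0 := by
    intro h0
    have := congrArg (fun p => Polynomial.coeff p i) h0
    simp only [coeff_map, coeff_zero] at this
    exact hφi this
  have hl : (P.map φ).leadingCoeff ≠ 0 := Polynomial.leadingCoeff_ne_zero.2 hP0
  have hl' : (P.map φ).leadingCoeff = φ (P.coeff (P.map φ).natDegree) := by
    rw [Polynomial.leadingCoeff, coeff_map]
  have hu : IsUnit (P.coeff (P.map φ).natDegree) := hunit _ (by rw [← hl']; exact hl)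
  obtain ⟨u, hu'⟩ := hu
  have hmon : (P.map φ * C (P.map φ).leadingCoeff⁻¹).Monic :=
    Polynomial.monic_mul_leadingCoeff_inv hP0
  have hinv : (P.map φ).leadingCoeff⁻¹ = φ ((u⁻¹ : Rˣ) : R) := by
    rw [hl', ← hu']
    apply inv_eq_of_mul_eq_one_right
    rw [← map_mul, Units.mul_inv, map_one]
  have hlift : P.map φ * C (P.map φ).leadingCoeff⁻¹ ∈ Polynomial.lifts φ := by
    rw [Polynomial.mem_lifts]
    refine ⟨P * C ((u⁻¹ : Rˣ) : R), ?_⟩
    rw [Polynomial.map_mul, Polynomial.map_C, hinv]
  obtain ⟨Q, hQ, -, hQm⟩ := Polynomial.lifts_and_degree_eq_and_monic hlift hmon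
  refine ⟨Q, hQm, ?_⟩
  rw [← eval_map, hQ, eval_mul, eval_map, hz0, zero_mul]

/-- A sheet does not have `x` residually integral over `R`. -/
theorem h919_not_resInt_of_isSheet {w : R} {x : F} (hx : Transcendental R x)
    {W : ValuationSubring F} (hW : IsSheet w x W) : ¬ ResInt R W x := by
  rintro ⟨P, hP, hPx⟩
  have h1 : (aeval x P)⁻¹ ∈ W := hW.2.2.2 P ⟨P.natDegree, by
    rw [hP.coeff_natDegree]
    exact hW.not_dvd_one⟩
  have h0 : aeval x P ≠ 0 := by
    intro h0
    exact hP.ne_zero ((transcendental_iff.1 hx) P h0)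
  have h2 := h919_mem_nonunits_mul W hPx h1
  rw [mul_inv_cancel₀ h0] at h2
  exact h919_one_not_mem_nonunits W h2

variable {F' : Type u} [Field F'] [Algebra R F']

/-- **Propagation of sheets.**  `V` and `V'` valuation subrings of `F` over `R[x]` inducing the
same valuation subring of `F'` via `α`; the chart of `F'` maps to the chart of `F` and `x` is
integral over its image.  If `V'` is a sheet, so is `V`. -/
theorem h919_isSheet_transfer {w : R} (hw : Irreducible w) {x : F} (hx : Transcendental R x)
    (α : F' →+* F) (hα : ∀ r : R, α (algebraMap R F' r) = algebraMap R F r)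
    (V V' : ValuationSubring F)
    (hRV : ∀ r : R, algebraMap R F r ∈ V) (hRV' : ∀ r : R, algebraMap R F r ∈ V')
    (hxV : x ∈ V) (hwV : algebraMap R F w ∈ V.nonunits)
    (hcomap : V.comap α = V'.comap α)
    {x' : F'} (hchart : ∀ b ∈ chart R ({x'} : Set F'), α b ∈ chart R ({x} : Set F))
    (hint : ∃ p : F'[X], p.Monic ∧ (∀ i, p.coeff i ∈ chart R ({x'} : Set F')) ∧
      (p.map α).eval x = 0)
    (hV' : IsSheet w x V') : IsSheet w x V := by
  by_contra hV
  have h1 : ResInt R V x := h919_resInt_of_not_isSheet hw V hRV hxV hwV hV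
  have h2 : ∀ b ∈ chart R ({x} : Set F), ResInt R V b := h919_resInt_chart V hRV h1
  obtain ⟨p, hp, hpc, hpx⟩ := hint
  have h3 : ∀ i, ResInt R V' ((p.map α).coeff i) := by
    intro i
    rw [coeff_map]
    have := h2 _ (hchart _ (hpc i))
    rw [← h919_resInt_comap α hα V, hcomap, h919_resInt_comap α hα V'] at this
    exact this
  have h4 : ResInt R V' x := h919_resInt_of_root V' hRV' (p.map α) (hp.map α) h3 hpx
  exact h919_not_resInt_of_isSheet hx hV' h4

end Sheet

end Fermat.Agent.S36.H919
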